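import Mathlib
import Fermat.Prelude.Def_EllipticCurve_FrobeniusTrace
import Fermat.Prelude.Def_FLTPrelim_Ramification

set_option autoImplicit false
set_option linter.style.haveILetI false

namespace Fermat.Agent.S54

open scoped Pointwise NumberField

noncomputable section

local notation "Qb" => AlgebraicClosure ℚ
local notation "GQ" => (AlgebraicClosure ℚ ≃ₐ[ℚ] AlgebraicClosure ℚ)
local notation "Zb" => integralClosure ℤ (AlgebraicClosure ℚ)

theorem isAlgClosure_Qbar : IsAlgClosure ℚ Qb := @AlgebraicClosure.instIsAlgClosure ℚ _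

attribute [local instance] isAlgClosure_Qbar

theorem isAlgebraic_int_Qbar : Algebra.IsAlgebraic ℤ Qb :=
  (IsFractionRing.comap_isAlgebraic_iff (A := ℤ) (K := ℚ) (C := Qb)).mpr inferInstance

attribute [local instance] isAlgebraic_int_Qbar

theorem isFractionRing_Zbar : IsFractionRing Zb Qb :=
  integralClosure.isFractionRing_of_algebraic (A := ℤ) (L := Qb) (by
    intro x hx; simpa using hx)

attribute [local instance] isFractionRing_Zbar

/-- The `ℓ`-power map as an algebra automorphism of an integral quotient. -/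
theorem exists_frob_algEquiv {Bq : Type*} [CommRing Bq] [Algebra ℤ Bq] (ℓ : ℕ) (hℓ : ℓ.Prime)
    (P : Ideal ℤ) [P.IsMaximal] (Q : Ideal Bq) [Q.IsMaximal] [Q.LiesOver P]
    [Algebra.IsIntegral ℤ Bq] (hℓQ : (ℓ : Bq) ∈ Q) :
    ∃ f : (Bq ⧸ Q) ≃ₐ[ℤ ⧸ P] (Bq ⧸ Q), ∀ x, f x = x ^ ℓ := by
  letI := Ideal.Quotient.field Q
  letI := Ideal.Quotient.field P
  haveI : Fact ℓ.Prime := ⟨hℓ⟩
  haveI : CharP (Bq ⧸ Q) ℓ := by
    rw [CharP.charP_iff_prime_eq_zero hℓ]
    have := Ideal.Quotient.eq_zero_iff_mem.mpr hℓQ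
    simpa using this
  let f₀ : (Bq ⧸ Q) →ₐ[ℤ ⧸ P] (Bq ⧸ Q) :=
    { frobenius (Bq ⧸ Q) ℓ with
      commutes' := by
        intro r
        obtain ⟨n, rfl⟩ := Ideal.Quotient.mk_surjective r
        simp }
  haveI : Algebra.IsAlgebraic (ℤ ⧸ P) (Bq ⧸ Q) := inferInstance
  refine ⟨(Algebra.IsAlgebraic.algEquivEquivAlgHom (ℤ ⧸ P) (Bq ⧸ Q)).symm f₀, fun x => ?_⟩
  rfl

/-- Step 1: a prime `Q` of `ℤ̄` containing `ℓ` and an element of the Galois group that stabilises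
`Q` and acts on `ℤ̄/Q` as the `ℓ`-power map. -/
theorem exists_frobenius_ideal (ℓ : ℕ) (hℓ : ℓ.Prime) :
    ∃ (Q : Ideal Zb) (σ : GQ),
      Q.IsMaximal ∧ (ℓ : Zb) ∈ Q ∧
      (∀ x, x ∈ Q ↔ σ • x ∈ Q) ∧ ∀ x, σ • x - x ^ ℓ ∈ Q := by
  letI : TopologicalSpace Zb := ⊥
  haveI : DiscreteTopology Zb := ⟨rfl⟩
  haveI : ContinuousSMul GQ Zb := by
    rw [continuousSMul_iff_stabilizer_isOpen]
    intro x
    have := stabilizer_isOpen_of_isIntegral (K := ℚ) (L := Qb) (x : Qb)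
    convert this using 1
    ext g
    simp only [SetLike.mem_coe, MulAction.mem_stabilizer_iff]
    constructor
    · intro h; exact congrArg Subtype.val h
    · intro h; exact Subtype.ext h
  haveI : IsGaloisGroup GQ ℤ Zb := IsGaloisGroup.of_isFractionRing GQ ℤ Zb ℚ Qb
  haveI : Algebra.IsInvariant ℤ Zb GQ := IsGaloisGroup.isInvariant
  -- the prime
  let P : Ideal ℤ := Ideal.span {(ℓ : ℤ)}
  haveI hPmax : P.IsMaximal := by
    have hp : Prime (ℓ : ℤ) := Nat.prime_iff_prime_int.mp hℓ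
    exact PrincipalIdealRing.isMaximal_of_irreducible hp.irreducible
  obtain ⟨Q, hQmax, hQP⟩ := Ideal.exists_ideal_over_maximal_of_isIntegral (S := Zb) P (by
    rw [(RingHom.injective_iff_ker_eq_bot _).mp (FaithfulSMul.algebraMap_injective ℤ Zb)]
    exact bot_le)
  haveI : Q.LiesOver P := ⟨hQP.symm⟩
  have hℓQ : (ℓ : Zb) ∈ Q := by
    have : (ℓ : ℤ) ∈ Q.comap (algebraMap ℤ Zb) := by
      rw [hQP]; exact Ideal.subset_span rfl
    simpa using this
  have hsurj := Ideal.Quotient.stabilizerHom_surjective_of_profinite (G := GQ) P Q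
  obtain ⟨f, hf⟩ := exists_frob_algEquiv ℓ hℓ P Q hℓQ
  obtain ⟨⟨σ, hσ⟩, hσf⟩ := hsurj f
  refine ⟨Q, σ, hQmax, hℓQ, fun x => ?_, fun x => ?_⟩
  · rw [MulAction.mem_stabilizer_iff] at hσ
    conv_rhs => rw [← hσ]
    exact (Ideal.smul_mem_pointwise_smul_iff (a := σ) (S := Q) (x := x)).symm
  · have := DFunLike.congr_fun hσf (Ideal.Quotient.mk Q x)
    rw [hf, Ideal.Quotient.stabilizerHom_apply, ← map_pow, Ideal.Quotient.eq] at this
    exact this

/-- Step 2: the localisation of `ℤ̄` at a prime above `ℓ` is a valuation ring. -/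
theorem mem_or_inv_mem_loc (ℓ : ℕ) (hℓ : ℓ.Prime) (Q : Ideal Zb) [Q.IsPrime] (hℓQ : (ℓ : Zb) ∈ Q)
    (x : Qb) :
    (∃ b s : Zb, s ∉ Q ∧ x * s = b) ∨ (∃ b s : Zb, s ∉ Q ∧ x⁻¹ * s = b) := by
  let L : IntermediateField ℚ Qb := IntermediateField.adjoin ℚ {x}
  haveI : FiniteDimensional ℚ L :=
    IntermediateField.adjoin.finiteDimensional (Algebra.IsIntegral.isIntegral x)
  haveI : NumberField L := ⟨⟩
  let ι : 𝓞 L →+* Zb :=
    { toFun := fun y => ⟨((y : L) : Qb), by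
        have h := y.2
        exact h.map (IsScalarTower.toAlgHom ℤ L Qb)⟩
      map_one' := rfl
      map_mul' := fun _ _ => rfl
      map_zero' := rfl
      map_add' := fun _ _ => rfl }
  have hι : ∀ y : 𝓞 L, ((ι y : Zb) : Qb) = ((y : L) : Qb) := fun _ => rfl
  let q : Ideal (𝓞 L) := Q.comap ι
  haveI : q.IsPrime := Ideal.comap_isPrime ι Q
  have hq0 : q ≠ ⊥ := by
    intro h
    have h1 : (ℓ : 𝓞 L) ∈ q := by
      change ι (ℓ : 𝓞 L) ∈ Q
      rw [map_natCast]; exact hℓQ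
    rw [h, Ideal.mem_bot] at h1
    exact hℓ.ne_zero (by exact_mod_cast h1)
  haveI : IsDiscreteValuationRing (Localization.AtPrime q) :=
    IsLocalization.AtPrime.isDiscreteValuationRing_of_dedekind_domain (𝓞 L) hq0 _
  let xL : L := ⟨x, IntermediateField.mem_adjoin_simple_self ℚ x⟩
  obtain ⟨a, c, hc, hac⟩ := IsFractionRing.div_surjective (𝓞 L) xL
  have hc0 : c ≠ 0 := nonZeroDivisors.ne_zero hc
  have hinj : Function.Injective (algebraMap (𝓞 L) (Localization.AtPrime q)) :=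
    IsLocalization.injective _ q.primeCompl_le_nonZeroDivisors
  have hx : x * ((c : L) : Qb) = ((a : L) : Qb) := by
    have h1 : xL * (c : L) = (a : L) := by
      rw [← hac]
      have : (algebraMap (𝓞 L) L c) ≠ 0 := by
        simpa using hc0
      field_simp
    exact congrArg (fun z : L => (z : Qb)) h1
  have hcQ : ((c : L) : Qb) ≠ 0 := by
    simpa using hc0
  rcases ValuationRing.dvd_total (algebraMap (𝓞 L) (Localization.AtPrime q) a)
    (algebraMap (𝓞 L) (Localization.AtPrime q) c) with ⟨z, hz⟩ | ⟨z, hz⟩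
  · -- a ∣ c
    right
    obtain ⟨⟨b, s⟩, rfl⟩ := IsLocalization.mk'_surjective q.primeCompl z
    have h1 : c * (s : 𝓞 L) = a * b := by
      apply hinj
      rw [map_mul, map_mul, hz, mul_assoc, IsLocalization.mk'_spec]
    have h2 : ((c : L) : Qb) * (((s : 𝓞 L) : L) : Qb) = ((a : L) : Qb) * ((b : L) : Qb) :=
      congrArg (fun z : 𝓞 L => ((z : L) : Qb)) h1
    refine ⟨ι b, ι s, s.2, ?_⟩
    rw [hι, hι]
    have hs0 : (((s : 𝓞 L) : L) : Qb) ≠ 0 := by
      have : (s : 𝓞 L) ≠ 0 := fun h => s.2 (by rw [h]; exact q.zero_mem)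
      simpa using this
    have hx0 : x ≠ 0 := by
      rintro rfl
      rw [zero_mul] at hx
      rw [← hx, zero_mul] at h2
      exact (mul_ne_zero hcQ hs0) h2
    rw [← hx] at h2
    apply mul_left_cancel₀ (mul_ne_zero hx0 hcQ)
    have h3 : x * x⁻¹ = 1 := mul_inv_cancel₀ hx0
    linear_combination h2 + ((c : L) : Qb) * (((s : 𝓞 L) : L) : Qb) * h3
  · left
    obtain ⟨⟨b, s⟩, rfl⟩ := IsLocalization.mk'_surjective q.primeCompl z
    have h1 : a * (s : 𝓞 L) = c * b := by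
      apply hinj
      rw [map_mul, map_mul, hz, mul_assoc, IsLocalization.mk'_spec]
    have h2 : ((a : L) : Qb) * (((s : 𝓞 L) : L) : Qb) = ((c : L) : Qb) * ((b : L) : Qb) :=
      congrArg (fun z : 𝓞 L => ((z : L) : Qb)) h1
    refine ⟨ι b, ι s, s.2, ?_⟩
    rw [hι, hι]
    rw [← hx] at h2
    apply mul_left_cancel₀ hcQ
    linear_combination h2

/-- Step 3: the localisation of `ℤ̄` at `Q`, as a valuation subring of `ℚ̄`. -/
def locValuationSubring (ℓ : ℕ) (hℓ : ℓ.Prime) (Q : Ideal Zb) [Q.IsPrime] (hℓQ : (ℓ : Zb) ∈ Q) :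
    ValuationSubring Qb where
  carrier := {x | ∃ b s : Zb, s ∉ Q ∧ x * s = b}
  mul_mem' := by
    rintro x y ⟨b, s, hs, h⟩ ⟨b', s', hs', h'⟩
    refine ⟨b * b', s * s', fun hm => ?_, ?_⟩
    · rcases Ideal.IsPrime.mem_or_mem inferInstance hm with h1 | h1
      · exact hs h1
      · exact hs' h1
    · push_cast
      rw [← h, ← h']; ring
  one_mem' := ⟨1, 1, fun h => (Ideal.IsPrime.ne_top inferInstance) ((Ideal.eq_top_iff_one Q).mpr h),
    by simp⟩
  add_mem' := by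
    rintro x y ⟨b, s, hs, h⟩ ⟨b', s', hs', h'⟩
    refine ⟨b * s' + b' * s, s * s', fun hm => ?_, ?_⟩
    · rcases Ideal.IsPrime.mem_or_mem inferInstance hm with h1 | h1
      · exact hs h1
      · exact hs' h1
    · push_cast
      rw [← h, ← h']; ring
  zero_mem' := ⟨0, 1, fun h => (Ideal.IsPrime.ne_top inferInstance) ((Ideal.eq_top_iff_one Q).mpr h),
    by simp⟩
  neg_mem' := by
    rintro x ⟨b, s, hs, h⟩
    refine ⟨-b, s, hs, ?_⟩
    push_cast
    rw [← h]; ring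
  mem_or_inv_mem' := fun x => mem_or_inv_mem_loc ℓ hℓ Q hℓQ x

theorem mem_locValuationSubring {ℓ : ℕ} {hℓ : ℓ.Prime} {Q : Ideal Zb} [Q.IsPrime]
    {hℓQ : (ℓ : Zb) ∈ Q} {x : Qb} :
    x ∈ locValuationSubring ℓ hℓ Q hℓQ ↔ ∃ b s : Zb, s ∉ Q ∧ x * s = b := Iff.rfl

theorem coe_mem_nonunits_loc {ℓ : ℕ} {hℓ : ℓ.Prime} {Q : Ideal Zb} [Q.IsPrime]
    {hℓQ : (ℓ : Zb) ∈ Q} {y : Zb} (hy : y ∈ Q) :
    (y : Qb) ∈ (locValuationSubring ℓ hℓ Q hℓQ).nonunits := by
  rw [ValuationSubring.mem_nonunits_iff_or]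
  by_cases h0 : (y : Qb) = 0
  · exact Or.inl h0
  · right
    rintro ⟨b, s, hs, h⟩
    apply hs
    have : s = y * b := by
      apply Subtype.ext
      push_cast
      rw [← h]
      field_simp
    rw [this]
    exact Q.mul_mem_right _ hy

theorem exists_frobenius (ℓ : ℕ) (hℓ : ℓ.Prime) :
    ∃ (A : ValuationSubring (AlgebraicClosure ℚ))
      (σ : AlgebraicClosure ℚ ≃ₐ[ℚ] AlgebraicClosure ℚ),
      A.LiesOverPrime ℓ ∧ A.IsFrobeniusAt σ ℓ := by
  obtain ⟨Q, σ, hQmax, hℓQ, hσQ, hσF⟩ := exists_frobenius_ideal ℓ hℓ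
  haveI : Q.IsPrime := hQmax.isPrime
  refine ⟨locValuationSubring ℓ hℓ Q hℓQ, σ, ?_, ?_⟩
  · have := coe_mem_nonunits_loc (hℓ := hℓ) (hℓQ := hℓQ) hℓQ
    simpa [ValuationSubring.LiesOverPrime] using this
  · -- `σ` and `σ⁻¹` preserve the valuation subring
    have hfwd : ∀ x, x ∈ locValuationSubring ℓ hℓ Q hℓQ → σ x ∈ locValuationSubring ℓ hℓ Q hℓQ := by
      rintro x ⟨b, s, hs, h⟩
      refine ⟨σ • b, σ • s, fun hm => hs ((hσQ s).mpr hm), ?_⟩
      change σ x * σ (s : Qb) = σ (b : Qb)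
      rw [← map_mul, h]
    have hbwd : ∀ x, x ∈ locValuationSubring ℓ hℓ Q hℓQ →
        σ⁻¹ x ∈ locValuationSubring ℓ hℓ Q hℓQ := by
      rintro x ⟨b, s, hs, h⟩
      refine ⟨σ⁻¹ • b, σ⁻¹ • s, fun hm => hs ?_, ?_⟩
      · have := (hσQ (σ⁻¹ • s)).mp hm
        rwa [smul_inv_smul] at this
      · change σ⁻¹ x * σ⁻¹ (s : Qb) = σ⁻¹ (b : Qb)
        rw [← map_mul, h]
    have hσ : σ ∈ (locValuationSubring ℓ hℓ Q hℓQ).decompositionSubgroup ℚ := by
      rw [MulAction.mem_stabilizer_iff]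
      ext x
      rw [ValuationSubring.mem_pointwise_smul_iff_inv_smul_mem]
      constructor
      · intro h
        have := hfwd _ h
        change σ • (σ⁻¹ • x) ∈ _ at this
        rwa [smul_inv_smul] at this
      · intro h
        exact hbwd _ h
    refine ⟨hσ, fun x => ?_⟩
    obtain ⟨⟨a, ha⟩, rfl⟩ := IsLocalRing.residue_surjective x
    rw [← IsLocalRing.ResidueField.residue_smul, ← map_pow, ← sub_eq_zero, ← map_sub,
      IsLocalRing.residue_eq_zero_iff, ← ValuationSubring.coe_mem_nonunits_iff]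
    change σ a - a ^ ℓ ∈ _
    obtain ⟨b, s, hs, h⟩ := ha
    have hZA : ∀ y : Zb, (y : Qb) ∈ locValuationSubring ℓ hℓ Q hℓQ := fun y =>
      ⟨y, 1, fun h => (Ideal.IsPrime.ne_top inferInstance) ((Ideal.eq_top_iff_one Q).mpr h),
        by simp⟩
    have ha : a ∈ locValuationSubring ℓ hℓ Q hℓQ := ⟨b, s, hs, h⟩
    have hσs : σ • s ∉ Q := fun hm => hs ((hσQ s).mpr hm)
    -- work in the valuation ring
    let a' : locValuationSubring ℓ hℓ Q hℓQ := ⟨a, ha⟩
    let σa' : locValuationSubring ℓ hℓ Q hℓQ := ⟨σ a, hfwd a ha⟩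
    let u : locValuationSubring ℓ hℓ Q hℓQ := ⟨((σ • s : Zb) : Qb), hZA _⟩
    let n1 : locValuationSubring ℓ hℓ Q hℓQ := ⟨((σ • b - b ^ ℓ : Zb) : Qb), hZA _⟩
    let n2 : locValuationSubring ℓ hℓ Q hℓQ := ⟨((σ • s - s ^ ℓ : Zb) : Qb), hZA _⟩
    have hn1 : n1 ∈ IsLocalRing.maximalIdeal (locValuationSubring ℓ hℓ Q hℓQ) := by
      rw [← ValuationSubring.coe_mem_nonunits_iff]
      exact coe_mem_nonunits_loc (hσF b)
    have hn2 : n2 ∈ IsLocalRing.maximalIdeal (locValuationSubring ℓ hℓ Q hℓQ) := by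
      rw [← ValuationSubring.coe_mem_nonunits_iff]
      exact coe_mem_nonunits_loc (hσF s)
    have hu : u ∉ IsLocalRing.maximalIdeal (locValuationSubring ℓ hℓ Q hℓQ) := by
      rw [← ValuationSubring.coe_mem_nonunits_iff, ValuationSubring.mem_nonunits_iff_or]
      have hu0 : ((σ • s : Zb) : Qb) ≠ 0 := by
        intro h0
        apply hσs
        have : (σ • s : Zb) = 0 := Subtype.ext h0
        rw [this]; exact Q.zero_mem
      rintro (h0 | h0)
      · exact hu0 h0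
      · exact h0 ⟨1, σ • s, hσs, by
          change ((σ • s : Zb) : Qb)⁻¹ * ((σ • s : Zb) : Qb) = ((1 : Zb) : Qb)
          rw [inv_mul_cancel₀ hu0]; rfl⟩
    have key : (σa' - a' ^ ℓ) * u = n1 - a' ^ ℓ * n2 := by
      apply Subtype.ext
      change (σ a - a ^ ℓ) * σ (s : Qb) =
        (σ (b : Qb) - (b : Qb) ^ ℓ) - a ^ ℓ * (σ (s : Qb) - (s : Qb) ^ ℓ)
      rw [← h, map_mul, mul_pow]
      ring
    have hmem : (σa' - a' ^ ℓ) * u ∈ IsLocalRing.maximalIdeal (locValuationSubring ℓ hℓ Q hℓQ) := by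
      rw [key]
      exact Ideal.sub_mem _ hn1 (Ideal.mul_mem_left _ _ hn2)
    have := (Ideal.IsPrime.mem_or_mem inferInstance hmem).resolve_right hu
    rw [← ValuationSubring.coe_mem_nonunits_iff] at this
    exact this

end

end Fermat.Agent.S54
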